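import Mathlib
import Fermat.Prelude.Def_AlgebraicCurve_DivisorClassGroup
import Fermat.Prelude.Def_ModularCurve_LaurentCoeff
import Fermat.Agent.MUL.Orig.S24.Residue
import Fermat.Agent.MUL.Orig.Lib.ConstExt.Dvr
import Fermat.Agent.MUL.Orig.Lib.ConstExt.Basic
import Fermat.Agent.MUL.Orig.Lib.RR.Basic
import Fermat.Agent.MUL.Orig.F3.I2.Descent.Theta
import Fermat.Agent.MUL.F3.I2.Descent.Places
import Fermat.Agent.MUL.F3.DictC.GensExp

section MergeWrap_Lib_ConstExt_Ext -- from Lib/ConstExt/Ext.lean

set_option autoImplicit false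
set_option linter.unusedSectionVars false

/-!
# Constant field extensions of function fields, part 2: extension of places

For a place `P` of `FK/K` (with residue field `K`) there is exactly one valuation subring `B` of
`FC` containing `C` with `φ⁻¹(B) = O_P`; it is a place of `FC/C`, unramified over `P`
(`ord (φ f) = ord_P f`), with residue field `C`.
-/

noncomputable section

open AlgebraicCurve

namespace Fermat.Agent.ConstExt

universe uK uC uFK uFC

variable {K : Type uK} {C : Type uC} {FK : Type uFK} {FC : Type uFC}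
  [Field K] [Field C] [Field FK] [Field FC] [Algebra K C] [Algebra K FK] [Algebra C FC]

/-! ### generalities on valuation subrings -/

section Val

variable {F : Type*} [Field F] (B : ValuationSubring F)

theorem val_eq_one_iff {x : F} (hx : x ≠ 0) : B.valuation x = 1 ↔ x ∈ B ∧ x⁻¹ ∈ B := by
  have hv0 : B.valuation x ≠ 0 := (Valuation.ne_zero_iff _).mpr hx
  constructor
  · intro h
    refine ⟨(B.valuation_le_one_iff x).mp h.le, (B.valuation_le_one_iff _).mp ?_⟩
    rw [map_inv₀, h, inv_one]
  · rintro ⟨h1, h2⟩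
    have h1' := (B.valuation_le_one_iff x).mpr h1
    have h2' := (B.valuation_le_one_iff _).mpr h2
    rw [map_inv₀] at h2'
    have h3 : 1 ≤ B.valuation x := by
      by_contra hcon
      rw [not_le] at hcon
      have : 1 < (B.valuation x)⁻¹ := (one_lt_inv₀ (zero_lt_iff.mpr hv0)).mpr hcon
      exact absurd h2' (not_le.mpr this)
    exact le_antisymm h1' h3

theorem val_lt_one_iff {x : F} (hx : x ≠ 0) : B.valuation x < 1 ↔ x⁻¹ ∉ B := by
  have hv0 : B.valuation x ≠ 0 := (Valuation.ne_zero_iff _).mpr hx
  rw [← B.valuation_le_one_iff, map_inv₀, not_le]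
  exact (one_lt_inv₀ (zero_lt_iff.mpr hv0)).symm

end Val

/-- all places of `FK/K` have residue field `K`. -/
def ResConst (K : Type*) (FK : Type*) [Field K] [Field FK] [Algebra K FK] : Prop :=
  ∀ (P : Place K FK) (f : FK), 0 ≤ P.ord f →
    ∃ c : K, f = algebraMap K FK c ∨ 0 < P.ord (f - algebraMap K FK c)

theorem exists_unif (P : Place K FK) : ∃ t : FK, P.ord t = 1 := by
  obtain ⟨π, hπ⟩ := IsDiscreteValuationRing.exists_irreducible P.toValuationSubring
  exact ⟨π, P.ord_coe_irreducible hπ⟩

theorem ne_zero_of_ord_ne_zero (P : Place K FK) {f : FK} (hf : P.ord f ≠ 0) : f ≠ 0 := by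
  rintro rfl
  exact hf P.ord_zero

/-- `B` is a valuation subring of `FC` over `C` lying over the place `P`. -/
structure IsExtOf (C : Type uC) [Field C] [Algebra C FC] (φ : FK →+* FC)
    (B : ValuationSubring FC) (P : Place K FK) : Prop where
  const_mem : ∀ c : C, algebraMap C FC c ∈ B
  mem_iff : ∀ f : FK, φ f ∈ B ↔ f ∈ P.toValuationSubring

namespace IsExtOf

variable {φ : FK →+* FC} {B : ValuationSubring FC} {P : Place K FK}

theorem val_const_le (h : IsExtOf C φ B P) (c : C) : B.valuation (algebraMap C FC c) ≤ 1 :=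
  (B.valuation_le_one_iff _).mpr (h.const_mem c)

theorem val_const (h : IsExtOf C φ B P) {c : C} (hc : c ≠ 0) :
    B.valuation (algebraMap C FC c) = 1 := by
  rw [val_eq_one_iff B ((map_ne_zero _).mpr hc)]
  refine ⟨h.const_mem c, ?_⟩
  rw [← map_inv₀]
  exact h.const_mem _

theorem val_map_le_iff (h : IsExtOf C φ B P) (f : FK) : B.valuation (φ f) ≤ 1 ↔ 0 ≤ P.ord f := by
  rw [B.valuation_le_one_iff, h.mem_iff, Fermat.Agent.S24Res.mem_iff_ord_nonneg]

theorem val_map_lt_iff (h : IsExtOf C φ B P) {f : FK} (hf : f ≠ 0) :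
    B.valuation (φ f) < 1 ↔ 0 < P.ord f := by
  rw [val_lt_one_iff B ((map_ne_zero φ).mpr hf), ← map_inv₀, h.mem_iff,
    Fermat.Agent.S24Res.mem_iff_ord_nonneg, P.ord_inv]
  omega

theorem val_map_eq_one (h : IsExtOf C φ B P) {f : FK} (hf : f ≠ 0) (h0 : P.ord f = 0) :
    B.valuation (φ f) = 1 := by
  rw [val_eq_one_iff B ((map_ne_zero φ).mpr hf), ← map_inv₀, h.mem_iff, h.mem_iff,
    Fermat.Agent.S24Res.mem_iff_ord_nonneg, Fermat.Agent.S24Res.mem_iff_ord_nonneg, P.ord_inv]
  omega

theorem val_map (h : IsExtOf C φ B P) {t : FK} (ht : P.ord t = 1) {f : FK} (hf : f ≠ 0) :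
    B.valuation (φ f) = B.valuation (φ t) ^ (P.ord f) := by
  have ht0 : t ≠ 0 := ne_zero_of_ord_ne_zero P (by rw [ht]; exact one_ne_zero)
  have htm : t ^ (P.ord f) ≠ 0 := zpow_ne_zero _ ht0
  have hu : P.ord (f * (t ^ (P.ord f))⁻¹) = 0 := by
    rw [P.ord_mul hf (inv_ne_zero htm), P.ord_inv, P.ord_zpow, ht]
    ring
  have hu0 : f * (t ^ (P.ord f))⁻¹ ≠ 0 := mul_ne_zero hf (inv_ne_zero htm)
  have h1 := h.val_map_eq_one hu0 hu
  have hf' : f = (f * (t ^ (P.ord f))⁻¹) * t ^ (P.ord f) := by
    field_simp
  conv_lhs => rw [hf']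
  rw [map_mul, map_mul, h1, one_mul, map_zpow₀, map_zpow₀]

/-- a family with entries of positive order (or zero) is mapped into the maximal ideal. -/
theorem val_Phi_lt_one (h : IsExtOf C φ B P) (g : Idx K C →₀ FK)
    (hg : ∀ j, B.valuation (φ (g j)) < 1) : B.valuation (Phi K C φ g) < 1 := by
  rw [Phi_apply, Finsupp.sum]
  refine Valuation.map_sum_lt _ one_ne_zero fun j _ => ?_
  rw [map_mul]
  calc B.valuation (algebraMap C FC (bas K C j)) * B.valuation (φ (g j))
      ≤ 1 * B.valuation (φ (g j)) := mul_le_mul_left (h.val_const_le _) _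
    _ = B.valuation (φ (g j)) := one_mul _
    _ < 1 := hg j

/-- the constant part of a family. -/
theorem Phi_mapRange_algebraMap {φ : FK →+* FC} (hφ : IsConstExt (K := K) (C := C) φ)
    (a : Idx K C →₀ K) :
    Phi K C φ (Finsupp.mapRange (algebraMap K FK) (map_zero _) a)
      = algebraMap C FC (Finsupp.linearCombination K (bas K C) a) := by
  rw [Phi_apply, Finsupp.sum_mapRange_index (fun j => by rw [map_zero, mul_zero]),
    Finsupp.linearCombination_apply, map_finsuppSum]
  refine Finsupp.sum_congr fun j _ => ?_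
  rw [hφ.comm, Algebra.smul_def, map_mul]
  ring

/-- (K1) a family with entries in `O_P` is congruent to a constant modulo the maximal ideal;
the constant is nonzero if some entry is a unit. -/
theorem exists_const_val_sub_lt (hφ : IsConstExt (K := K) (C := C) φ) (hres : ResConst K FK)
    (h : IsExtOf C φ B P) (g : Idx K C →₀ FK) (hg : ∀ j, 0 ≤ P.ord (g j)) :
    ∃ c : C, B.valuation (Phi K C φ g - algebraMap C FC c) < 1 ∧
      ((∃ j, g j ≠ 0 ∧ P.ord (g j) = 0) → c ≠ 0) := by
  classical
  choose a ha using fun j => hres P (g j) (hg j)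
  -- the finitely supported family of constants
  have hsupp : ∀ j, (if g j = 0 then (0 : K) else a j) ≠ 0 → j ∈ g.support := by
    intro j hj
    rw [Finsupp.mem_support_iff]
    intro h0
    rw [if_pos h0] at hj
    exact hj rfl
  set A : Idx K C →₀ K := Finsupp.onFinset g.support (fun j => if g j = 0 then 0 else a j) hsupp
    with hA
  have hAj : ∀ j, A j = if g j = 0 then 0 else a j := fun j => rfl
  refine ⟨Finsupp.linearCombination K (bas K C) A, ?_, ?_⟩
  · rw [← Phi_mapRange_algebraMap hφ, ← map_sub]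
    refine h.val_Phi_lt_one _ fun j => ?_
    rw [Finsupp.sub_apply, Finsupp.mapRange_apply, hAj]
    by_cases h0 : g j = 0
    · rw [if_pos h0, h0, map_zero, sub_zero, map_zero, map_zero]
      exact zero_lt_one
    · rw [if_neg h0]
      rcases ha j with h1 | h1
      · rw [← h1, sub_self, map_zero, map_zero]
        exact zero_lt_one
      · have hne : g j - algebraMap K FK (a j) ≠ 0 := by
          intro h2
          rw [h2, P.ord_zero] at h1
          exact lt_irrefl _ h1
        exact (h.val_map_lt_iff hne).mpr h1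
  · rintro ⟨j, hj0, hj⟩ hc
    have hA0 : A = 0 := by
      have hli := (bas K C).linearIndependent
      rw [linearIndependent_iff] at hli
      exact hli A hc
    have haj : a j = 0 := by
      have := congrArg (fun l : Idx K C →₀ K => l j) hA0
      simp only [Finsupp.coe_zero, Pi.zero_apply] at this
      rw [hAj, if_neg hj0] at this
      exact this
    rcases ha j with h1 | h1
    · rw [haj, map_zero] at h1
      exact hj0 h1
    · rw [haj, map_zero, sub_zero, hj] at h1
      exact lt_irrefl _ h1

/-- (KEY) the valuation of `Φ g` is `v(φ t) ^ m`, `m` the minimum of the orders of the entries. -/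
theorem val_Phi (hφ : IsConstExt (K := K) (C := C) φ) (hres : ResConst K FK)
    (h : IsExtOf C φ B P) {t : FK} (ht : P.ord t = 1) (g : Idx K C →₀ FK) (m : ℤ)
    (hm : ∀ j ∈ g.support, m ≤ P.ord (g j)) (hj : ∃ j ∈ g.support, P.ord (g j) = m) :
    B.valuation (Phi K C φ g) = B.valuation (φ t) ^ m := by
  have ht0 : t ≠ 0 := ne_zero_of_ord_ne_zero P (by rw [ht]; exact one_ne_zero)
  have htm : t ^ (-m) ≠ 0 := zpow_ne_zero _ ht0
  have hv0 : B.valuation (φ t) ≠ 0 := (Valuation.ne_zero_iff _).mpr ((map_ne_zero φ).mpr ht0)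
  -- the normalised family
  have hent : ∀ j, (t ^ (-m) • g) j = t ^ (-m) * g j := fun j => by
    rw [Finsupp.smul_apply, smul_eq_mul]
  have hord : ∀ j ∈ g.support, P.ord ((t ^ (-m) • g) j) = P.ord (g j) - m := by
    intro j hjs
    have hgj : g j ≠ 0 := Finsupp.mem_support_iff.mp hjs
    rw [hent, P.ord_mul htm hgj, P.ord_zpow, ht]
    ring
  have h1 : ∀ j, 0 ≤ P.ord ((t ^ (-m) • g) j) := by
    intro j
    by_cases hjs : j ∈ g.support
    · rw [hord j hjs]
      have := hm j hjs
      omega
    · have : g j = 0 := Finsupp.notMem_support_iff.mp hjs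
      rw [hent, this, mul_zero, P.ord_zero]
  obtain ⟨c, hc, hc0⟩ := exists_const_val_sub_lt hφ hres h _ h1
  have hcne : c ≠ 0 := by
    apply hc0
    obtain ⟨j, hjs, hjm⟩ := hj
    refine ⟨j, ?_, ?_⟩
    · rw [hent]
      exact mul_ne_zero htm (Finsupp.mem_support_iff.mp hjs)
    · rw [hord j hjs, hjm, sub_self]
  have hval1 : B.valuation (Phi K C φ (t ^ (-m) • g)) = 1 := by
    have hsplit : Phi K C φ (t ^ (-m) • g)
        = algebraMap C FC c + (Phi K C φ (t ^ (-m) • g) - algebraMap C FC c) := by ring
    rw [hsplit, Valuation.map_add_eq_of_lt_left _ (by rw [h.val_const hcne]; exact hc),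
      h.val_const hcne]
  rw [Phi_smul, map_mul, map_zpow₀, map_zpow₀, zpow_neg] at hval1
  have hz : B.valuation (φ t) ^ m ≠ 0 := zpow_ne_zero _ hv0
  calc B.valuation (Phi K C φ g)
      = B.valuation (φ t) ^ m * ((B.valuation (φ t) ^ m)⁻¹ * B.valuation (Phi K C φ g)) := by
        rw [← mul_assoc, mul_inv_cancel₀ hz, one_mul]
    _ = B.valuation (φ t) ^ m := by rw [hval1, mul_one]

end IsExtOf

/-- minimum of the orders of the entries of a nonzero family. -/
theorem exists_minOrd (P : Place K FK) {g : Idx K C →₀ FK} (hg : g ≠ 0) :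
    ∃ m : ℤ, (∀ j ∈ g.support, m ≤ P.ord (g j)) ∧ ∃ j ∈ g.support, P.ord (g j) = m := by
  have hne : g.support.Nonempty := Finsupp.support_nonempty_iff.mpr hg
  obtain ⟨j, hj, hmin⟩ := Finset.exists_min_image g.support (fun j => P.ord (g j)) hne
  exact ⟨P.ord (g j), fun k hk => hmin k hk, j, hj, rfl⟩

/-- the order of an element of `FC` at any extension of `P` is determined by `P`. -/
theorem exists_ordExt {φ : FK →+* FC} (hφ : IsConstExt (K := K) (C := C) φ)
    (hres : ResConst K FK) (P : Place K FK) {t : FK} (ht : P.ord t = 1) {x : FC} (hx : x ≠ 0) :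
    ∃ m : ℤ, ∀ B : ValuationSubring FC, IsExtOf C φ B P →
      B.valuation x = B.valuation (φ t) ^ m := by
  obtain ⟨g, h, hh, hgh⟩ := exists_frac hφ x
  have hgne : Phi K C φ g ≠ 0 := by
    rw [← hgh]
    exact mul_ne_zero hx hh
  have hg0 : g ≠ 0 := by
    rintro rfl
    exact hgne (map_zero _)
  have hh0 : h ≠ 0 := by
    rintro rfl
    exact hh (map_zero _)
  obtain ⟨m, hm, hmj⟩ := exists_minOrd P hg0
  obtain ⟨n, hn, hnj⟩ := exists_minOrd P hh0
  refine ⟨m - n, fun B hB => ?_⟩
  have ht0 : t ≠ 0 := ne_zero_of_ord_ne_zero P (by rw [ht]; exact one_ne_zero)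
  have hv0 : B.valuation (φ t) ≠ 0 := (Valuation.ne_zero_iff _).mpr ((map_ne_zero φ).mpr ht0)
  have h1 := hB.val_Phi hφ hres ht g m hm hmj
  have h2 := hB.val_Phi hφ hres ht h n hn hnj
  have h3 : B.valuation x * B.valuation (Phi K C φ h) = B.valuation (Phi K C φ g) := by
    rw [← map_mul, hgh]
  rw [h1, h2] at h3
  rw [zpow_sub₀ hv0, eq_div_iff (zpow_ne_zero _ hv0)]
  exact h3

end Fermat.Agent.ConstExt
end
end MergeWrap_Lib_ConstExt_Ext

section MergeWrap_Lib_ConstExt_Place -- from Lib/ConstExt/Place.lean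

set_option autoImplicit false
set_option linter.unusedSectionVars false

/-!
# Constant field extensions of function fields, part 3: the place `extPlace P`

* `exists_isExtOf`: existence of a valuation subring of `FC` over `P` (Chevalley);
* `IsExtOf.unique`: uniqueness;
* `extPlace P : Place C FC`, `ord_extPlace : (extPlace P).ord (φ f) = P.ord f`;
* `extPlace_injective`, `eq_extPlace_of_isExtOf`;
* `exists_eq_extPlace_or`: a place of `FC` is `extPlace P` or is trivial on `φ(FK)`.
-/

noncomputable section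

open AlgebraicCurve

namespace Fermat.Agent.ConstExt

universe uK uC uFK uFC

variable {K : Type uK} {C : Type uC} {FK : Type uFK} {FC : Type uFC}
  [Field K] [Field C] [Field FK] [Field FC] [Algebra K C] [Algebra K FK] [Algebra C FC]
  {φ : FK →+* FC}

/-- existence of an extension of a place (Chevalley). -/
theorem exists_isExtOf (hφ : IsConstExt (K := K) (C := C) φ) (P : Place K FK) :
    ∃ B : ValuationSubring FC, IsExtOf C φ B P := by
  obtain ⟨t, ht⟩ := exists_unif P
  have ht0 : t ≠ 0 := ne_zero_of_ord_ne_zero P (by rw [ht]; exact one_ne_zero)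
  set O : Subring FK := P.toValuationSubring.toSubring with hO
  have hOK : ∀ a : K, algebraMap K FK a ∈ O := P.algebraMap_mem'
  have htO : t ∈ O := Fermat.Agent.S24Res.mem_of_ord_nonneg P (by rw [ht]; exact zero_le_one)
  set R : Subring FC := ringOf hφ O hOK with hR
  set τ : R := ⟨φ t, map_mem_ringOf hφ htO⟩ with hτ
  have hI : Ideal.span {τ} ≠ ⊤ := by
    rw [Ne, Ideal.span_singleton_eq_top]
    intro hu
    obtain ⟨y, hy⟩ := hu.exists_right_inv
    obtain ⟨g, hg, hgy⟩ := y.2
    have h1 : φ t * Phi K C φ g = 1 := by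
      rw [hgy]
      exact congrArg Subtype.val hy
    have h2 : Phi K C φ (t • g) = Phi K C φ (E 1 1) := by
      rw [Phi_smul, h1, Phi_E hφ, map_one, map_one, mul_one]
    have h3 : t • g = E (1 : C) (1 : FK) := Phi_injective hφ h2
    -- some coordinate of `1` is nonzero
    have h4 : (bas K C).repr (1 : C) ≠ 0 := by
      intro h0
      have := (bas K C).repr.map_eq_zero_iff.mp h0
      exact one_ne_zero this
    obtain ⟨j, hj⟩ := Finsupp.ne_iff.mp h4
    rw [Finsupp.zero_apply] at hj
    have h5 := congrArg (fun l : Idx K C →₀ FK => l j) h3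
    simp only [Finsupp.smul_apply, smul_eq_mul, E_apply] at h5
    rw [Algebra.smul_def, mul_one] at h5
    have hgj : g j ≠ 0 := by
      intro h0
      rw [h0, mul_zero] at h5
      exact hj ((map_eq_zero _).mp h5.symm)
    have h6 : P.ord (t * g j) = 0 := by
      rw [h5]
      exact Fermat.Agent.S24Res.ord_algebraMap P _
    rw [P.ord_mul ht0 hgj, ht] at h6
    have h7 : 0 ≤ P.ord (g j) := Fermat.Agent.S24Res.ord_nonneg_of_mem P (hg j)
    omega
  obtain ⟨B, hRB, hIB⟩ := Ideal.image_subset_nonunits_valuationSubring _ hI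
  have htB : B.valuation (φ t) < 1 := by
    have : φ t ∈ B.nonunits := hIB ⟨τ, Ideal.subset_span rfl, rfl⟩
    exact (ValuationSubring.mem_nonunits_iff (A := B)).mp this
  refine ⟨B, fun c => hRB (algebraMap_mem_ringOf hφ c), fun f => ⟨fun hf => ?_, fun hf => ?_⟩⟩
  · by_contra hfO
    have hford : P.ord f < 0 := Fermat.Agent.S24Res.ord_neg_of_not_mem P hfO
    have hf0 : f ≠ 0 := ne_zero_of_ord_ne_zero P (ne_of_lt hford)
    -- `f⁻¹ = t * u` with `u ∈ O`
    set u : FK := f⁻¹ * t⁻¹ with hu
    have huord : 0 ≤ P.ord u := by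
      rw [hu, P.ord_mul (inv_ne_zero hf0) (inv_ne_zero ht0), P.ord_inv, P.ord_inv, ht]
      omega
    have huB : B.valuation (φ u) ≤ 1 :=
      (B.valuation_le_one_iff _).mpr (hRB (map_mem_ringOf hφ
        (Fermat.Agent.S24Res.mem_of_ord_nonneg P huord)))
    have hfinv : f⁻¹ = t * u := by
      rw [hu]
      field_simp
    have h1 : B.valuation (φ f⁻¹) < 1 := by
      rw [hfinv, map_mul, map_mul]
      calc B.valuation (φ t) * B.valuation (φ u) ≤ B.valuation (φ t) * 1 :=
            mul_le_mul_right huB _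
        _ = B.valuation (φ t) := mul_one _
        _ < 1 := htB
    have h2 : (φ f⁻¹)⁻¹ ∉ B :=
      (val_lt_one_iff B ((map_ne_zero φ).mpr (inv_ne_zero hf0))).mp h1
    rw [map_inv₀, inv_inv] at h2
    exact h2 hf
  · exact hRB (map_mem_ringOf hφ hf)

namespace IsExtOf

variable {B B' : ValuationSubring FC} {P : Place K FK}

theorem isUnif (hφ : IsConstExt (K := K) (C := C) φ) (hres : ResConst K FK)
    (h : IsExtOf C φ B P) {t : FK} (ht : P.ord t = 1) : IsUnif B (φ t) := by
  have ht0 : t ≠ 0 := ne_zero_of_ord_ne_zero P (by rw [ht]; exact one_ne_zero)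
  refine ⟨(map_ne_zero φ).mpr ht0, (h.val_map_lt_iff ht0).mpr (by rw [ht]; exact zero_lt_one),
    fun x hx => ?_⟩
  obtain ⟨m, hm⟩ := exists_ordExt hφ hres P ht hx
  exact ⟨m, hm B h⟩

/-- uniqueness of the extension of a place. -/
theorem unique (hφ : IsConstExt (K := K) (C := C) φ) (hres : ResConst K FK)
    (h : IsExtOf C φ B P) (h' : IsExtOf C φ B' P) : B = B' := by
  obtain ⟨t, ht⟩ := exists_unif P
  have hu := h.isUnif hφ hres ht
  have hu' := h'.isUnif hφ hres ht
  ext x
  rcases eq_or_ne x 0 with rfl | hx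
  · exact ⟨fun _ => B'.zero_mem, fun _ => B.zero_mem⟩
  obtain ⟨m, hm⟩ := exists_ordExt hφ hres P ht hx
  rw [← B.valuation_le_one_iff, ← B'.valuation_le_one_iff, hm B h, hm B' h',
    zpow_le_one_iff_nonneg hu.val_ne_zero hu.lt_one,
    zpow_le_one_iff_nonneg hu'.val_ne_zero hu'.lt_one]

end IsExtOf

/-- a chosen uniformizer. -/
def unif (P : Place K FK) : FK := (exists_unif P).choose

theorem ord_unif (P : Place K FK) : P.ord (unif P) = 1 := (exists_unif P).choose_spec

/-- the valuation subring of the extended place. -/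
def extRing (hφ : IsConstExt (K := K) (C := C) φ) (P : Place K FK) : ValuationSubring FC :=
  (exists_isExtOf hφ P).choose

theorem extRing_isExtOf (hφ : IsConstExt (K := K) (C := C) φ) (P : Place K FK) :
    IsExtOf C φ (extRing hφ P) P := (exists_isExtOf hφ P).choose_spec

/-- the extension of a place `P` of `FK/K` to `FC/C`. -/
def extPlace (hφ : IsConstExt (K := K) (C := C) φ) (hres : ResConst K FK) (P : Place K FK) :
    Place C FC :=
  ((extRing_isExtOf hφ P).isUnif hφ hres (ord_unif P)).place (extRing_isExtOf hφ P).const_mem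

theorem extPlace_toValuationSubring (hφ : IsConstExt (K := K) (C := C) φ)
    (hres : ResConst K FK) (P : Place K FK) :
    (extPlace hφ hres P).toValuationSubring = extRing hφ P := rfl

theorem extPlace_isExtOf (hφ : IsConstExt (K := K) (C := C) φ) (hres : ResConst K FK)
    (P : Place K FK) : IsExtOf C φ (extPlace hφ hres P).toValuationSubring P :=
  extRing_isExtOf hφ P

/-- `extPlace P` is unramified over `P`. -/
theorem ord_extPlace (hφ : IsConstExt (K := K) (C := C) φ) (hres : ResConst K FK)
    (P : Place K FK) (f : FK) : (extPlace hφ hres P).ord (φ f) = P.ord f := by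
  rcases eq_or_ne f 0 with rfl | hf
  · rw [map_zero, Place.ord_zero, Place.ord_zero]
  · exact IsUnif.ord_place _ _ ((map_ne_zero φ).mpr hf)
      ((extRing_isExtOf hφ P).val_map (ord_unif P) hf)

theorem eq_extPlace_of_isExtOf (hφ : IsConstExt (K := K) (C := C) φ) (hres : ResConst K FK)
    {P : Place K FK} {Q : Place C FC} (h : IsExtOf C φ Q.toValuationSubring P) :
    Q = extPlace hφ hres P :=
  Place.ext (h.unique hφ hres (extPlace_isExtOf hφ hres P))

theorem extPlace_injective (hφ : IsConstExt (K := K) (C := C) φ) (hres : ResConst K FK) :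
    Function.Injective (extPlace hφ hres : Place K FK → Place C FC) := by
  intro P P' h
  apply Place.ext
  ext f
  rw [← (extPlace_isExtOf hφ hres P).mem_iff, ← (extPlace_isExtOf hφ hres P').mem_iff, h]

/-- a ring automorphism of `FC` preserving `C` and fixing `φ(FK)` preserves `extPlace P`. -/
theorem map_mem_extPlace_iff (hφ : IsConstExt (K := K) (C := C) φ) (hres : ResConst K FK)
    (P : Place K FK) (τ : FC ≃+* FC)
    (hτC : ∀ c : C, ∃ c' : C, τ (algebraMap C FC c) = algebraMap C FC c')
    (hτφ : ∀ f : FK, τ (φ f) = φ f) (x : FC) :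
    τ x ∈ (extPlace hφ hres P).toValuationSubring ↔ x ∈ (extPlace hφ hres P).toValuationSubring := by
  set B := (extPlace hφ hres P).toValuationSubring with hB
  have h1 : IsExtOf C φ (B.comap (τ : FC →+* FC)) P := by
    refine ⟨fun c => ?_, fun f => ?_⟩
    · rw [ValuationSubring.mem_comap]
      obtain ⟨c', hc'⟩ := hτC c
      show τ (algebraMap C FC c) ∈ B
      rw [hc']
      exact (extPlace_isExtOf hφ hres P).const_mem c'
    · rw [ValuationSubring.mem_comap]
      show τ (φ f) ∈ B ↔ _
      rw [hτφ]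
      exact (extPlace_isExtOf hφ hres P).mem_iff f
  have h2 := h1.unique hφ hres (extPlace_isExtOf hφ hres P)
  rw [← hB] at h2
  conv_rhs => rw [← h2]
  rw [ValuationSubring.mem_comap]
  rfl

end Fermat.Agent.ConstExt
end
end MergeWrap_Lib_ConstExt_Place

section MergeWrap_Lib_ConstExt_Restrict -- from Lib/ConstExt/Restrict.lean

set_option autoImplicit false
set_option linter.unusedSectionVars false

/-!
# Constant field extensions of function fields, part 4: restriction of places, residue fields

* `exists_extPlace_eq_or`: a place of `FC/C` is `extPlace P` for a (unique) place `P` of `FK/K`,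
  or it is trivial on `φ(FK)`;
* `eq_extPlace_of_ord`: a place `Q` with `Q.ord (φ f) = P.ord f` for all `f` is `extPlace P`;
* `extPlace_resConst`, `deg_extPlace`: the residue field of `extPlace P` is `C`.
-/

noncomputable section

open AlgebraicCurve

namespace Fermat.Agent.ConstExt

universe uK uC uFK uFC

variable {K : Type uK} {C : Type uC} {FK : Type uFK} {FC : Type uFC}
  [Field K] [Field C] [Field FK] [Field FC] [Algebra K C] [Algebra K FK] [Algebra C FC]
  {φ : FK →+* FC}

theorem ord_map_mul_zpow (Q : Place C FC) {x t : FK} (hx : x ≠ 0) (ht : t ≠ 0) (q : ℤ) :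
    Q.ord (φ (x * t ^ q)) = Q.ord (φ x) + q * Q.ord (φ t) := by
  rw [map_mul, map_zpow₀, Q.ord_mul ((map_ne_zero φ).mpr hx)
    (zpow_ne_zero _ ((map_ne_zero φ).mpr ht)), Q.ord_zpow]

/-- the restriction of a place of `FC` to `FK`, when it is not trivial. -/
theorem exists_extPlace_eq_or (hφ : IsConstExt (K := K) (C := C) φ) (hres : ResConst K FK)
    (Q : Place C FC) :
    (∃ P : Place K FK, extPlace hφ hres P = Q) ∨ (∀ f : FK, f ≠ 0 → Q.ord (φ f) = 0) := by
  classical
  by_cases h0 : ∀ f : FK, f ≠ 0 → Q.ord (φ f) = 0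
  · exact Or.inr h0
  left
  simp only [not_forall] at h0
  obtain ⟨f0, hf0, hf0ord⟩ := h0
  -- positive values
  have hS : ∃ n : ℕ, 0 < n ∧ ∃ f : FK, f ≠ 0 ∧ Q.ord (φ f) = n := by
    rcases lt_or_gt_of_ne hf0ord with hneg | hpos
    · refine ⟨(-Q.ord (φ f0)).toNat, by omega, f0⁻¹, inv_ne_zero hf0, ?_⟩
      rw [map_inv₀, Q.ord_inv]
      omega
    · exact ⟨(Q.ord (φ f0)).toNat, by omega, f0, hf0, by omega⟩
  set e := Nat.find hS with he
  obtain ⟨he0, t, ht0, hte⟩ := Nat.find_spec hS
  rw [← he] at he0 hte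
  have hmin : ∀ n : ℕ, 0 < n → (∃ f : FK, f ≠ 0 ∧ Q.ord (φ f) = n) → e ≤ n :=
    fun n hn hf => Nat.find_min' hS ⟨hn, hf⟩
  set A : ValuationSubring FK := Q.toValuationSubring.comap φ with hA
  have hmemA : ∀ f : FK, f ∈ A ↔ 0 ≤ Q.ord (φ f) := by
    intro f
    rw [hA, ValuationSubring.mem_comap, Fermat.Agent.S24Res.mem_iff_ord_nonneg]
  have hunif : IsUnif A t := by
    refine ⟨ht0, ?_, fun x hx => ?_⟩
    · rw [val_lt_one_iff A ht0, hmemA, map_inv₀, Q.ord_inv, hte]
      omega
    · -- division with remainder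
      set n := Q.ord (φ x) with hn
      have hepos : (0 : ℤ) < e := by exact_mod_cast he0
      set q := n / e with hq
      set r := n % e with hr
      have hr0 : 0 ≤ r := Int.emod_nonneg _ (ne_of_gt hepos)
      have hre : r < e := Int.emod_lt_of_pos _ hepos
      have hnqr : n = q * e + r := by
        rw [hq, hr, mul_comm]
        exact (Int.mul_ediv_add_emod n e).symm
      set y := x * t ^ (-q) with hy
      have hy0 : y ≠ 0 := mul_ne_zero hx (zpow_ne_zero _ ht0)
      have hyord : Q.ord (φ y) = r := by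
        rw [hy, ord_map_mul_zpow Q hx ht0, hte, ← hn, hnqr]
        ring
      have hr' : r = 0 := by
        by_contra hrne
        have hrpos : 0 < r := lt_of_le_of_ne hr0 (Ne.symm hrne)
        have := hmin r.toNat (by omega) ⟨y, hy0, by rw [hyord]; omega⟩
        omega
      rw [hr'] at hyord
      have hyval : A.valuation y = 1 := by
        rw [val_eq_one_iff A hy0, hmemA, hmemA, map_inv₀, Q.ord_inv, hyord]
        exact ⟨le_refl _, by omega⟩
      refine ⟨q, ?_⟩
      have hxy : x = y * t ^ q := by
        rw [hy, mul_assoc, ← zpow_add₀ ht0]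
        simp
      conv_lhs => rw [hxy]
      rw [map_mul, hyval, one_mul, map_zpow₀]
  have hK : ∀ a : K, algebraMap K FK a ∈ A := by
    intro a
    rw [hA, ValuationSubring.mem_comap]
    show φ (algebraMap K FK a) ∈ Q.toValuationSubring
    rw [hφ.comm]
    exact Q.algebraMap_mem' _
  refine ⟨hunif.place hK, ?_⟩
  symm
  apply eq_extPlace_of_isExtOf hφ hres
  exact ⟨Q.algebraMap_mem', fun f => Iff.rfl⟩

/-- a place of `FC` inducing `P.ord` on `φ(FK)` is `extPlace P`. -/
theorem eq_extPlace_of_ord (hφ : IsConstExt (K := K) (C := C) φ) (hres : ResConst K FK)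
    (P : Place K FK) (Q : Place C FC) (h : ∀ f : FK, Q.ord (φ f) = P.ord f) :
    Q = extPlace hφ hres P := by
  apply eq_extPlace_of_isExtOf hφ hres
  refine ⟨Q.algebraMap_mem', fun f => ?_⟩
  rw [Fermat.Agent.S24Res.mem_iff_ord_nonneg, Fermat.Agent.S24Res.mem_iff_ord_nonneg, h]

/-- the places `extPlace P` are not trivial on `φ(FK)`. -/
theorem extPlace_ne_of_trivial (hφ : IsConstExt (K := K) (C := C) φ) (hres : ResConst K FK)
    {Q : Place C FC} (hQ : ∀ f : FK, f ≠ 0 → Q.ord (φ f) = 0) (P : Place K FK) :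
    extPlace hφ hres P ≠ Q := by
  rintro rfl
  have h1 := ord_extPlace hφ hres P (unif P)
  rw [ord_unif] at h1
  have h2 := hQ (unif P) (ne_zero_of_ord_ne_zero P (by rw [ord_unif]; exact one_ne_zero))
  omega

/-! ### residue fields -/

/-- in terms of valuations: an element of a place is congruent to a constant. -/
theorem val_sub_const_lt_iff (Q : Place C FC) (x : FC) (c : C) :
    Q.toValuationSubring.valuation (x - algebraMap C FC c) < 1 ↔
      (x = algebraMap C FC c ∨ 0 < Q.ord (x - algebraMap C FC c)) := by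
  rcases eq_or_ne (x - algebraMap C FC c) 0 with h0 | h0
  · rw [h0, map_zero]
    exact ⟨fun _ => Or.inl (sub_eq_zero.mp h0), fun _ => zero_lt_one⟩
  · rw [val_lt_one_iff _ h0, Fermat.Agent.S24Res.mem_iff_ord_nonneg, Q.ord_inv]
    constructor
    · intro h
      right
      omega
    · rintro (h | h)
      · exact absurd (sub_eq_zero.mpr h) h0
      · omega

/-- the residue field of `extPlace P` is `C`. -/
theorem extPlace_resConst (hφ : IsConstExt (K := K) (C := C) φ) (hres : ResConst K FK)
    (P : Place K FK) (x : FC) (hx : 0 ≤ (extPlace hφ hres P).ord x) :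
    ∃ c : C, x = algebraMap C FC c ∨ 0 < (extPlace hφ hres P).ord (x - algebraMap C FC c) := by
  set Q := extPlace hφ hres P with hQ
  set B := Q.toValuationSubring with hB
  have hext : IsExtOf C φ B P := extPlace_isExtOf hφ hres P
  rcases eq_or_ne x 0 with rfl | hx0
  · exact ⟨0, Or.inl (map_zero _).symm⟩
  set t := unif P with ht
  have htord : P.ord t = 1 := ord_unif P
  have ht0 : t ≠ 0 := ne_zero_of_ord_ne_zero P (by rw [htord]; exact one_ne_zero)
  have hu : IsUnif B (φ t) := hext.isUnif hφ hres htord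
  obtain ⟨g, h, hh, hgh⟩ := exists_frac hφ x
  have hgne : Phi K C φ g ≠ 0 := by
    rw [← hgh]
    exact mul_ne_zero hx0 hh
  have hg0 : g ≠ 0 := by
    rintro rfl
    exact hgne (map_zero _)
  have hh0 : h ≠ 0 := by
    rintro rfl
    exact hh (map_zero _)
  obtain ⟨m, hm, hmj⟩ := exists_minOrd P hg0
  obtain ⟨n, hn, hnj⟩ := exists_minOrd P hh0
  have h1 := hext.val_Phi hφ hres htord g m hm hmj
  have h2 := hext.val_Phi hφ hres htord h n hn hnj
  have hxB : B.valuation x ≤ 1 :=
    (B.valuation_le_one_iff x).mpr (Fermat.Agent.S24Res.mem_of_ord_nonneg Q hx)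
  have hmn : n ≤ m := by
    have h3 : B.valuation x * B.valuation (Phi K C φ h) = B.valuation (Phi K C φ g) := by
      rw [← map_mul, hgh]
    rw [h1, h2] at h3
    have h4 : B.valuation x = B.valuation (φ t) ^ (m - n) := by
      rw [zpow_sub₀ hu.val_ne_zero, eq_div_iff (zpow_ne_zero _ hu.val_ne_zero)]
      exact h3
    rw [h4, zpow_le_one_iff_nonneg hu.val_ne_zero hu.lt_one] at hxB
    omega
  -- normalise
  have htn : t ^ (-n) ≠ 0 := zpow_ne_zero _ ht0
  have hent : ∀ (k : Idx K C →₀ FK) (j : Idx K C), (t ^ (-n) • k) j = t ^ (-n) * k j :=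
    fun k j => by rw [Finsupp.smul_apply, smul_eq_mul]
  have hordk : ∀ (k : Idx K C →₀ FK) (j : Idx K C), k j ≠ 0 →
      P.ord ((t ^ (-n) • k) j) = P.ord (k j) - n := by
    intro k j hkj
    rw [hent, P.ord_mul htn hkj, P.ord_zpow, htord]
    ring
  have hnonneg : ∀ (k : Idx K C →₀ FK), (∀ j ∈ k.support, n ≤ P.ord (k j)) →
      ∀ j, 0 ≤ P.ord ((t ^ (-n) • k) j) := by
    intro k hk j
    by_cases hjs : j ∈ k.support
    · rw [hordk k j (Finsupp.mem_support_iff.mp hjs)]
      have := hk j hjs
      omega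
    · have : k j = 0 := Finsupp.notMem_support_iff.mp hjs
      rw [hent, this, mul_zero, P.ord_zero]
  obtain ⟨cg, hcg, -⟩ := hext.exists_const_val_sub_lt hφ hres _
    (hnonneg g fun j hj => le_trans hmn (hm j hj))
  obtain ⟨ch, hch, hch0⟩ := hext.exists_const_val_sub_lt hφ hres _ (hnonneg h hn)
  have hchne : ch ≠ 0 := by
    apply hch0
    obtain ⟨j, hjs, hjn⟩ := hnj
    have hhj : h j ≠ 0 := Finsupp.mem_support_iff.mp hjs
    refine ⟨j, ?_, ?_⟩
    · rw [hent]
      exact mul_ne_zero htn hhj
    · rw [hordk h j hhj, hjn, sub_self]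
  set G := Phi K C φ (t ^ (-n) • g) with hG
  set H := Phi K C φ (t ^ (-n) • h) with hH
  have hxGH : x * H = G := by
    rw [hG, hH, Phi_smul, Phi_smul, ← hgh]
    ring
  have hHval : B.valuation H = 1 := by
    have hsplit : H = algebraMap C FC ch + (H - algebraMap C FC ch) := by ring
    rw [hsplit, Valuation.map_add_eq_of_lt_left _ (by rw [hext.val_const hchne]; exact hch),
      hext.val_const hchne]
  have hH0 : H ≠ 0 := by
    intro h0
    rw [h0, map_zero] at hHval
    exact zero_ne_one hHval
  refine ⟨cg / ch, (val_sub_const_lt_iff Q x _).mp ?_⟩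
  have hkey : x - algebraMap C FC (cg / ch)
      = ((G - algebraMap C FC cg) - algebraMap C FC (cg / ch) * (H - algebraMap C FC ch)) * H⁻¹ := by
    have hc : algebraMap C FC (cg / ch) * algebraMap C FC ch = algebraMap C FC cg := by
      rw [← map_mul, div_mul_cancel₀ _ hchne]
    have hx' : x = G * H⁻¹ := by
      rw [← hxGH, mul_assoc, mul_inv_cancel₀ hH0, mul_one]
    rw [hx']
    field_simp
    linear_combination (-1 : FC) * hc
  rw [hkey, map_mul, map_inv₀, hHval, inv_one, mul_one]
  refine lt_of_le_of_lt (Valuation.map_sub _ _ _) (max_lt hcg ?_)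
  rw [map_mul]
  calc B.valuation (algebraMap C FC (cg / ch)) * B.valuation (H - algebraMap C FC ch)
      ≤ 1 * B.valuation (H - algebraMap C FC ch) := mul_le_mul_left (hext.val_const_le _) _
    _ = B.valuation (H - algebraMap C FC ch) := one_mul _
    _ < 1 := hch

/-- a place whose residue field is the field of constants has degree one. -/
theorem deg_eq_one_of_res {k F : Type*} [Field k] [Field F] [Algebra k F] (Q : Place k F)
    (h : ∀ x : F, 0 ≤ Q.ord x →
      ∃ c : k, x = algebraMap k F c ∨ 0 < Q.ord (x - algebraMap k F c)) : Q.deg = 1 := by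
  have hsurj : Function.Surjective (algebraMap k Q.ResidueField) := by
    intro z
    obtain ⟨⟨x, hxmem⟩, rfl⟩ := IsLocalRing.residue_surjective z
    obtain ⟨c, hc⟩ := h x (Fermat.Agent.S24Res.ord_nonneg_of_mem Q hxmem)
    refine ⟨c, ?_⟩
    rw [IsScalarTower.algebraMap_apply k Q.toValuationSubring Q.ResidueField,
      IsLocalRing.ResidueField.algebraMap_eq]
    symm
    rw [← sub_eq_zero, ← map_sub, IsLocalRing.residue_eq_zero_iff]
    set a : Q.toValuationSubring := ⟨x, hxmem⟩ - algebraMap k Q.toValuationSubring c with ha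
    have hcoe : (a : F) = x - algebraMap k F c := rfl
    rcases hc with hc | hc
    · have ha0 : a = 0 := by
        apply Subtype.ext
        rw [hcoe, hc, sub_self]
        rfl
      rw [ha0]
      exact zero_mem _
    · have ha0 : a ≠ 0 := by
        intro h0
        have : (a : F) = 0 := by rw [h0]; rfl
        rw [hcoe] at this
        rw [this, Q.ord_zero] at hc
        exact lt_irrefl _ hc
      rw [Fermat.Agent.S24Res.mem_maximalIdeal_iff_ord_pos Q ha0, hcoe]
      exact hc
  have e : k ≃ₗ[k] Q.ResidueField :=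
    LinearEquiv.ofBijective (Algebra.linearMap k Q.ResidueField)
      ⟨(algebraMap k Q.ResidueField).injective, hsurj⟩
  rw [Place.deg, ← e.finrank_eq, Module.finrank_self]

theorem deg_of_resConst (hres : ResConst K FK) (P : Place K FK) : P.deg = 1 :=
  deg_eq_one_of_res P (hres P)

theorem deg_extPlace (hφ : IsConstExt (K := K) (C := C) φ) (hres : ResConst K FK)
    (P : Place K FK) : (extPlace hφ hres P).deg = 1 :=
  deg_eq_one_of_res _ (extPlace_resConst hφ hres P)

end Fermat.Agent.ConstExt
end
end MergeWrap_Lib_ConstExt_Restrict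

section MergeWrap_Lib_ConstExt_Div -- from Lib/ConstExt/Div.lean

set_option autoImplicit false
set_option linter.unusedSectionVars false

/-!
# Constant field extensions of function fields, part 5: divisors and `Pic0`

* `extDiv : Divisor K FK →+ Divisor C FC`, the base change of divisors;
* `extDiv_principal`: `extDiv (div f) = div (φ f)`;
* `degree_extDiv`;
* `bc : Pic0 K FK →+ Pic0 C FC`, `bc_mk`.
-/

noncomputable section

open AlgebraicCurve

namespace Fermat.Agent.ConstExt

universe uK uC uFK uFC

variable {K : Type uK} {C : Type uC} {FK : Type uFK} {FC : Type uFC}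
  [Field K] [Field C] [Field FK] [Field FC] [Algebra K C] [Algebra K FK] [Algebra C FC]
  {φ : FK →+* FC}

/-- base change of divisors. -/
def extDiv (hφ : IsConstExt (K := K) (C := C) φ) (hres : ResConst K FK) :
    Divisor K FK →+ Divisor C FC :=
  Finsupp.mapDomain.addMonoidHom (extPlace hφ hres)

variable (hφ : IsConstExt (K := K) (C := C) φ) (hres : ResConst K FK)

theorem extDiv_def (D : Divisor K FK) :
    extDiv hφ hres D = Finsupp.mapDomain (extPlace hφ hres) D := rfl

@[simp]
theorem extDiv_single (P : Place K FK) (n : ℤ) :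
    extDiv hφ hres (Finsupp.single P n) = Finsupp.single (extPlace hφ hres P) n := by
  rw [extDiv_def, Finsupp.mapDomain_single]

@[simp]
theorem extDiv_apply_extPlace (D : Divisor K FK) (P : Place K FK) :
    extDiv hφ hres D (extPlace hφ hres P) = D P := by
  rw [extDiv_def]
  exact Finsupp.mapDomain_apply (extPlace_injective hφ hres) D P

theorem extDiv_apply_of_trivial (D : Divisor K FK) {Q : Place C FC}
    (hQ : ∀ f : FK, f ≠ 0 → Q.ord (φ f) = 0) : extDiv hφ hres D Q = 0 := by
  rw [extDiv_def]
  apply Finsupp.mapDomain_of_notMem_range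
  rintro ⟨P, hP⟩
  exact extPlace_ne_of_trivial hφ hres hQ P hP

/-- `extDiv (div f) = div (φ f)`. -/
theorem extDiv_principal {D : Divisor K FK} {f : FK} (hf : f ≠ 0)
    (hD : ∀ P : Place K FK, D P = P.ord f) (Q : Place C FC) :
    extDiv hφ hres D Q = Q.ord (φ f) := by
  rcases exists_extPlace_eq_or hφ hres Q with ⟨P, rfl⟩ | hQ
  · rw [extDiv_apply_extPlace, ord_extPlace, hD]
  · rw [extDiv_apply_of_trivial hφ hres D hQ, hQ f hf]

theorem degree_extDiv (D : Divisor K FK) :
    Divisor.degree (extDiv hφ hres D) = Divisor.degree D := by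
  induction D using Finsupp.induction_linear with
  | zero => simp only [map_zero]
  | add D E hD hE => rw [map_add, map_add, hD, hE, map_add]
  | single P n =>
      rw [extDiv_single, Divisor.degree_single, Divisor.degree_single, deg_extPlace,
        deg_of_resConst hres]

theorem extDiv_mem_degZero {D : Divisor K FK} (hD : D ∈ Divisor.degZero (K := K) (F := FK)) :
    extDiv hφ hres D ∈ Divisor.degZero (K := C) (F := FC) := by
  rw [Divisor.mem_degZero, degree_extDiv]
  exact hD

theorem extDiv_mem_principal {D : Divisor K FK}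
    (hD : D ∈ Divisor.principal (K := K) (F := FK)) :
    extDiv hφ hres D ∈ Divisor.principal (K := C) (F := FC) := by
  obtain ⟨f, hf, hDf⟩ := hD
  exact ⟨φ f, (map_ne_zero φ).mpr hf, fun Q => extDiv_principal hφ hres hf hDf Q⟩

theorem extDiv_injective : Function.Injective (extDiv hφ hres) :=
  Finsupp.mapDomain_injective (extPlace_injective hφ hres)

/-- base change on divisors of degree zero. -/
def extDivZero : Divisor.degZero (K := K) (F := FK) →+ Divisor.degZero (K := C) (F := FC) :=
  ((extDiv hφ hres).comp (Divisor.degZero (K := K) (F := FK)).subtype).codRestrict _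
    (fun D => extDiv_mem_degZero hφ hres D.2)

@[simp]
theorem coe_extDivZero (D : Divisor.degZero (K := K) (F := FK)) :
    (extDivZero hφ hres D : Divisor C FC) = extDiv hφ hres (D : Divisor K FK) := rfl

/-- base change of divisor classes of degree zero. -/
def bc : Pic0 K FK →+ Pic0 C FC :=
  QuotientAddGroup.map _ _ (extDivZero hφ hres) (by
    rintro ⟨D, hD0⟩ hD
    simp only [AddSubgroup.mem_addSubgroupOf, AddSubgroup.mem_comap] at hD ⊢
    exact extDiv_mem_principal hφ hres hD)

theorem bc_mk (D : Divisor.degZero (K := K) (F := FK)) :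
    bc hφ hres (Pic0.mk D) = Pic0.mk (extDivZero hφ hres D) := rfl

/-- the kernel of `bc`, in terms of divisors. -/
theorem bc_mk_eq_zero_iff (D : Divisor.degZero (K := K) (F := FK)) :
    bc hφ hres (Pic0.mk D) = 0 ↔
      extDiv hφ hres (D : Divisor K FK) ∈ Divisor.principal (K := C) (F := FC) := by
  rw [bc_mk, Pic0.mk, QuotientAddGroup.eq_zero_iff, AddSubgroup.mem_addSubgroupOf]
  rfl

theorem pic0_mk_eq_zero_iff {k F : Type*} [Field k] [Field F] [Algebra k F]
    (D : Divisor.degZero (K := k) (F := F)) :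
    Pic0.mk D = 0 ↔ (D : Divisor k F) ∈ Divisor.principal (K := k) (F := F) := by
  rw [Pic0.mk, QuotientAddGroup.eq_zero_iff, AddSubgroup.mem_addSubgroupOf]

end Fermat.Agent.ConstExt
end
end MergeWrap_Lib_ConstExt_Div

section MergeWrap_Lib_ConstExt_Inst -- from Lib/ConstExt/Inst.lean

set_option autoImplicit false

/-!
# Constant field extensions: instances of the hypotheses

* `resConst_of_isRRField`: the hypothesis `ResConst K F` from `IsRRField K F`;
* `isConstExt_descTheta`: the coefficientwise embedding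
  `descTheta K K' F₀ : laurentBaseChange K F₀ →+* laurentBaseChange K' F₀` is a constant
  field extension in the sense of `IsConstExt`.
-/

noncomputable section

open AlgebraicCurve ModularCurve

namespace Fermat.Agent.ConstExt

theorem resConst_of_isRRField {K F : Type*} [Field K] [Field F] [Algebra K F]
    (h : Fermat.Agent.RR.IsRRField K F) : ResConst K F :=
  fun P _ hf => Fermat.Agent.RR.exists_const_sub h P hf

theorem resConst_of_deg_one {K F : Type*} [Field K] [Field F] [Algebra K F]
    (h : ∀ v : Place K F, v.deg = 1) : ResConst K F := by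
  intro v f hf
  have hsurj : Function.Surjective (algebraMap K v.ResidueField) := by
    intro z
    have h1 : (1 : v.ResidueField) ≠ 0 := one_ne_zero
    obtain ⟨c, hc⟩ := (finrank_eq_one_iff_of_nonzero' (1 : v.ResidueField) h1).mp (h v) z
    exact ⟨c, by rw [Algebra.algebraMap_eq_smul_one, hc]⟩
  have hmem : f ∈ v.toValuationSubring := Fermat.Agent.S24Res.mem_of_ord_nonneg v hf
  obtain ⟨c, hc⟩ := hsurj (IsLocalRing.residue v.toValuationSubring ⟨f, hmem⟩)
  refine ⟨c, ?_⟩
  set a : v.toValuationSubring := ⟨f, hmem⟩ - algebraMap K v.toValuationSubring c with ha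
  have hamem : a ∈ IsLocalRing.maximalIdeal v.toValuationSubring := by
    rw [← IsLocalRing.residue_eq_zero_iff, ha, map_sub, sub_eq_zero, ← hc]
    rfl
  have hcoe : (a : F) = f - algebraMap K F c := rfl
  rcases eq_or_ne a 0 with h0 | h0
  · left
    have : (a : F) = 0 := by rw [h0]; rfl
    rw [hcoe, sub_eq_zero] at this
    exact this
  · right
    rw [← hcoe]
    exact (Fermat.Agent.S24Res.mem_maximalIdeal_iff_ord_pos v h0).mp hamem

universe u v

theorem isConstExt_descTheta (K : Type u) (K' : Type v) [Field K] [Field K'] [Algebra ℚ K]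
    [Algebra ℚ K'] [Algebra K K'] (F₀ : IntermediateField ℚ (LaurentSeries ℚ)) :
    IsConstExt (K := K) (C := K') (Fermat.Agent.F3I2.descTheta K K' F₀) where
  comm := Fermat.Agent.F3I2.descTheta_algebraMap K K' F₀
  ld := fun _ b hb g h => Fermat.Agent.F3I2.descTheta_linearDisjoint K K' F₀ b hb g h
  gen := Fermat.Agent.F3I2.descTheta_adjoin_eq_top K K' F₀

end Fermat.Agent.ConstExt
end
end MergeWrap_Lib_ConstExt_Inst

section MergeWrap_Lib_ConstExt_DescInst -- from Lib/ConstExt/DescInst.lean

set_option autoImplicit false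

/-!
# The place extension data `DescPlaces K K' F₀` (A3e, half 1)

`descPlaces K K' F₀ hres : Fermat.Agent.F3I2.DescPlaces K K' F₀` for fields `K → K'` and the
coefficientwise embedding `descTheta K K' F₀ : F_K → F_K'`, as soon as all places of `F_K/K`
have residue field `K` (`ResConst`, e.g. from `IsRRField K F_K`).
-/

noncomputable section

open AlgebraicCurve ModularCurve

namespace Fermat.Agent.ConstExt

universe u v

variable (K : Type u) (K' : Type v) [Field K] [Field K'] [Algebra ℚ K] [Algebra ℚ K']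
  [Algebra K K'] (F₀ : IntermediateField ℚ (LaurentSeries ℚ))

/-- the place extension data along `θ : F_K → F_K'`. -/
def descPlaces (hres : ResConst K (laurentBaseChange K F₀)) :
    Fermat.Agent.F3I2.DescPlaces K K' F₀ where
  ext := extPlace (isConstExt_descTheta K K' F₀) hres
  ext_injective := extPlace_injective (isConstExt_descTheta K K' F₀) hres
  ord_ext := fun v f => ord_extPlace (isConstExt_descTheta K K' F₀) hres v f
  dich := fun w => by
    rcases exists_extPlace_eq_or (isConstExt_descTheta K K' F₀) hres w with h | h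
    · exact Or.inl h
    · refine Or.inr fun f => ?_
      rcases eq_or_ne f 0 with rfl | hf
      · rw [map_zero, Place.ord_zero]
      · exact h f hf

@[simp]
theorem descPlaces_ext (hres : ResConst K (laurentBaseChange K F₀))
    (v : Place K (laurentBaseChange K F₀)) :
    (descPlaces K K' F₀ hres).ext v = extPlace (isConstExt_descTheta K K' F₀) hres v := rfl

/-- the place extension data, from the Riemann-Roch hypotheses on `F_K`. -/
def descPlacesOfRR (hK : Fermat.Agent.RR.IsRRField K (laurentBaseChange K F₀)) :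
    Fermat.Agent.F3I2.DescPlaces K K' F₀ :=
  descPlaces K K' F₀ (resConst_of_isRRField hK)

end Fermat.Agent.ConstExt
end
end MergeWrap_Lib_ConstExt_DescInst
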